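/-
S26 / block V : function field maps: composition, isomorphisms, pull-back of effective Cartier data.
(cited by `S26/V/Grp.lean`)
-/
import Fermat.Agent.S26.B.Defs
import Fermat.Agent.S26.E.Adapter

set_option autoImplicit false

universe u

open CategoryTheory CategoryTheory.Limits AlgebraicGeometry

namespace Fermat.Agent.S26.V

/-- function field maps compose -/
theorem Fn.isFnMap_comp {X Y Z : Scheme.{u}} [IsIntegral X] [IsIntegral Y] [IsIntegral Z]
    {φ : X ⟶ Y} {φ' : Y ⟶ Z} {ψ : Y.functionField →+* X.functionField}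
    {ψ' : Z.functionField →+* Y.functionField} (h : IsFnMap φ ψ) (h' : IsFnMap φ' ψ') :
    IsFnMap (φ ≫ φ') (ψ.comp ψ') := by
  intro x a
  have h1 : ψ' (toFF (φ' (φ x)) a) = toFF (φ x) ((φ'.stalkMap (φ x)).hom a) := h' (φ x) a
  have h2 := h x ((φ'.stalkMap (φ x)).hom a)
  have e : ((φ ≫ φ').stalkMap x).hom a = (φ.stalkMap x).hom ((φ'.stalkMap (φ x)).hom a) := by
    rw [Scheme.Hom.stalkMap_comp]
    rfl
  rw [e, ← h2, ← h1]
  rfl

/-- an isomorphism of integral schemes has a function field map -/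
theorem Fn.exists_isFnMap_of_comp_eq_id {X Y : Scheme.{u}} [IsIntegral X] [IsIntegral Y]
    (φ : X ⟶ Y) (φ' : Y ⟶ X) (h : φ ≫ φ' = 𝟙 X) (h' : φ' ≫ φ = 𝟙 Y) :
    ∃ ψ : Y.functionField →+* X.functionField, IsFnMap φ ψ := by
  have hiso : IsIso φ := ⟨φ', h, h'⟩
  have hgen : φ (genericPoint X) = genericPoint Y := genericPoint_eq_of_isOpenImmersion φ
  exact ⟨ffMap φ hgen, E.isFnMap_ffMap φ hgen⟩

/-- pull-back of effective Cartier data along a morphism with a function field map -/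
theorem Fn.exists_isPull {T' T : Scheme.{u}} [IsIntegral T'] [IsIntegral T] (φ : T' ⟶ T)
    (ψ : T.functionField →+* T'.functionField) (h : IsFnMap φ ψ) (D : ECD T) :
    ∃ D' : ECD T', ECD.IsPull φ D D' := by
  have key : ∀ x' : T', toFF x' ((φ.stalkMap x').hom (D.θ (φ x'))) =
      ψ (toFF (φ x') (D.θ (φ x'))) := fun x' => (h x' _).symm
  have hne : ∀ x : T, toFF x (D.θ x) ≠ 0 := D.toCD.ne
  refine ⟨{ θ := fun x' => (φ.stalkMap x').hom (D.θ (φ x')), ne := ?_, coh := ?_ }, fun _ => rfl⟩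
  · intro x' h0
    have h1 := key x'
    rw [h0, map_zero] at h1
    exact hne (φ x') ((map_eq_zero ψ).1 h1.symm)
  · intro x'
    obtain ⟨U, hxU, hU⟩ := D.coh (φ x')
    refine ⟨φ ⁻¹ᵁ U, hxU, fun y' hy' => ?_⟩
    rw [key, key, ← map_div₀]
    obtain ⟨a, ha, e⟩ := hU (φ y') hy'
    refine ⟨(φ.stalkMap y').hom a, ha.map _, ?_⟩
    rw [← h y' a, e]

end Fermat.Agent.S26.V
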