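/-
S26 / block V, leaf GRP3 (helper258): the function field map of `[n^k]`; positivity of the degree of the cover.
-/
import Fermat.Agent.S26.V.Sys

set_option autoImplicit false

universe u

open CategoryTheory CategoryTheory.Limits AlgebraicGeometry NeronModelInfra GoodReductionJacobian

namespace Fermat.Agent.S26.V

variable {K : Type u} [Field K] {A : Scheme.{u}} {f : A ⟶ SpK K} (L : RelativeGroupLaw K f)

/-- `m x = [m] ∘ x` -/
theorem Pow_comp_nsmul {T : Scheme.{u}} (t : T ⟶ SpK K) (x : SchemeHomOver t f) (m : ℕ) :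
    x.1 ≫ L.schemeNsmul m = (L.nsmul t m x).1 := by
  have h1 := L.nsmul_natural f t x.1 x.2 m RelativeGroupLaw.idPoint
  have h2 : schemeHomOverComp x.1 x.2 (RelativeGroupLaw.idPoint (f := f)) = x :=
    Subtype.ext (Category.comp_id _)
  rw [h2] at h1
  rw [← h1]
  rfl

theorem Pow_nsmul_add {T : Scheme.{u}} (t : T ⟶ SpK K) (a b : ℕ) (x : SchemeHomOver t f) :
    L.nsmul t (a + b) x = L.mul t (L.nsmul t a x) (L.nsmul t b x) := by
  induction b with
  | zero => rw [add_zero, RelativeGroupLaw.nsmul_zero, L.mul_one]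
  | succ b ih =>
    rw [← add_assoc, RelativeGroupLaw.nsmul_succ, ih, RelativeGroupLaw.nsmul_succ, L.mul_assoc]

theorem Pow_nsmul_mul {T : Scheme.{u}} (t : T ⟶ SpK K) (a b : ℕ) (x : SchemeHomOver t f) :
    L.nsmul t (a * b) x = L.nsmul t b (L.nsmul t a x) := by
  induction b with
  | zero => rw [mul_zero, RelativeGroupLaw.nsmul_zero, RelativeGroupLaw.nsmul_zero]
  | succ b ih => rw [mul_add, mul_one, Pow_nsmul_add, ih, RelativeGroupLaw.nsmul_succ]

theorem Pow_schemeNsmul_mul (a b : ℕ) :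
    L.schemeNsmul (a * b) = L.schemeNsmul a ≫ L.schemeNsmul b := by
  have h := Pow_comp_nsmul L f (L.nsmul f a RelativeGroupLaw.idPoint) b
  rw [← Pow_nsmul_mul] at h
  exact h.symm

theorem Pow_schemeNsmul_one : L.schemeNsmul 1 = 𝟙 A := by
  show (L.nsmul f 1 RelativeGroupLaw.idPoint).1 = 𝟙 A
  rw [L.nsmul_one_apply]

theorem Pow_isFnMap_id {X : Scheme.{u}} [IsIntegral X] :
    IsFnMap (𝟙 X) (RingHom.id X.functionField) := by
  intro x a
  rw [Scheme.Hom.stalkMap_id]
  rfl

theorem Pow_isFnMap_comp {X Y Z : Scheme.{u}} [IsIntegral X] [IsIntegral Y] [IsIntegral Z]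
    {φ : X ⟶ Y} {φ' : Y ⟶ Z} {ψ : Y.functionField →+* X.functionField}
    {ψ' : Z.functionField →+* Y.functionField} (h : IsFnMap φ ψ) (h' : IsFnMap φ' ψ') :
    IsFnMap (φ ≫ φ') (ψ.comp ψ') := by
  intro x a
  rw [Scheme.Hom.stalkMap_comp]
  exact (congrArg ψ (h' (φ x) a)).trans (h x _)

/-- the function field map of `[n^k]` -/
theorem Pow_isFnMap_nsmul_pow [IsIntegral A] (n : ℕ) (I : IsogData K f L n)
    (k : ℕ) : IsFnMap (L.schemeNsmul (n ^ k)) (I.ψ ^ k) := by
  induction k with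
  | zero =>
    rw [pow_zero, pow_zero, Pow_schemeNsmul_one]
    exact Pow_isFnMap_id
  | succ k ih =>
    rw [pow_succ, pow_succ, Pow_schemeNsmul_mul]
    exact Pow_isFnMap_comp ih I.isFn

/-- the degree of the cover is positive -/
theorem Pow_cdeg_pos {L : RelativeGroupLaw K f} [IsIntegral A] (X : CoverData K f L) :
    0 < cdeg X := by
  let _ := X.σ.toAlgebra
  have : Module.Finite A.functionField X.X.functionField := X.finite
  exact Module.finrank_pos

end Fermat.Agent.S26.V
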